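import Mathlib.NumberTheory.FLT.Basic
import Fermat.Agent.S01
import Fermat.Agent.S60

/-!
# Fermat's Last Theorem and modularity, restated

Fermat's Last Theorem in Mathlib's formulations, and the modularity theorem for semistable curves
(S60) under a descriptive name. The build checks that each of these rests on the three standard
axioms only.
-/

set_option autoImplicit false

namespace FLTAgent

/-- Fermat's Last Theorem, as stated in Mathlib. -/
theorem fermatLastTheorem : FermatLastTheorem := fun n hn a b c ha hb hc =>
  Fermat.Agent.S01.result n hn a b c (Nat.pos_of_ne_zero ha) (Nat.pos_of_ne_zero hb)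
    (Nat.pos_of_ne_zero hc)

/-- Fermat's Last Theorem over the integers. -/
theorem fermatLastTheoremWith_int {n : ℕ} (hn : 3 ≤ n) : FermatLastTheoremWith ℤ n :=
  fermatLastTheoremFor_iff_int.mp (fermatLastTheorem n hn)

/-- Fermat's Last Theorem over the rationals. -/
theorem fermatLastTheoremWith_rat {n : ℕ} (hn : 3 ≤ n) : FermatLastTheoremWith ℚ n :=
  fermatLastTheoremFor_iff_rat.mp (fermatLastTheorem n hn)

/-- Semistable elliptic curves over `ℚ` are modular, for an integral semistable model. -/
theorem isModular_of_isSemistableModel (W : WeierstrassCurve ℤ) (hΔ : W.Δ ≠ 0)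
    (hW : W.IsSemistableModel) : (W.map (Int.castRingHom ℚ)).IsModular :=
  Fermat.Agent.S60.result W hΔ hW

end FLTAgent

/--
info: 'FLTAgent.fermatLastTheorem' depends on axioms:
[propext, Classical.choice, Quot.sound]
-/
#guard_msgs (whitespace := lax) in
#print axioms FLTAgent.fermatLastTheorem

/--
info: 'FLTAgent.fermatLastTheoremWith_int' depends on axioms:
[propext, Classical.choice, Quot.sound]
-/
#guard_msgs (whitespace := lax) in
#print axioms FLTAgent.fermatLastTheoremWith_int

/--
info: 'FLTAgent.fermatLastTheoremWith_rat' depends on axioms:
[propext, Classical.choice, Quot.sound]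
-/
#guard_msgs (whitespace := lax) in
#print axioms FLTAgent.fermatLastTheoremWith_rat

/--
info: 'FLTAgent.isModular_of_isSemistableModel' depends on axioms:
[propext, Classical.choice, Quot.sound]
-/
#guard_msgs (whitespace := lax) in
#print axioms FLTAgent.isModular_of_isSemistableModel
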