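import Fermat.Statements.S02

/-!
# S02: a solution gives a Frey package
-/

set_option autoImplicit false
open FreyPackage

namespace Fermat.Agent.S02

theorem aux_package (a b c : ℤ) (ha : a ≠ 0) (hb : b ≠ 0) (hc : c ≠ 0) (p : ℕ) (pp : p.Prime)
    (hp5 : 5 ≤ p) (H : a ^ p + b ^ p = c ^ p) (hab : IsCoprime a b) (hbe : Even b) :
    Nonempty FreyPackage := by
  have hp : Odd p := pp.odd_of_ne_two (by omega)
  have hao : a % 2 = 1 := by
    rcases Int.emod_two_eq_zero_or_one a with h | h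
    · exfalso
      have h2a : (2 : ℤ) ∣ a := Int.dvd_of_emod_eq_zero h
      have h2b : (2 : ℤ) ∣ b := even_iff_two_dvd.mp hbe
      have := hab.isUnit_of_dvd' h2a h2b
      rw [Int.isUnit_iff] at this
      omega
    · exact h
  have hgcd : ∀ x y : ℤ, IsCoprime x y → gcd x y = 1 := by
    intro x y hxy
    have := Int.isCoprime_iff_gcd_eq_one.mp hxy
    rw [← Int.coe_gcd, this]; rfl
  have hb2 : (b : ZMod 2) = 0 := by
    rw [ZMod.intCast_zmod_eq_zero_iff_dvd]
    exact even_iff_two_dvd.mp hbe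
  have : a % 4 = 3 ∨ a % 4 = 1 := by omega
  rcases this with h | h
  · refine ⟨⟨a, b, c, ha, hb, hc, p, pp, hp5, H, hgcd a b hab, ?_, hb2⟩⟩
    have : (a : ZMod 4) = ((3 : ℤ) : ZMod 4) := by
      rw [ZMod.intCast_eq_intCast_iff']
      omega
    simpa using this
  · refine ⟨⟨-a, -b, -c, neg_ne_zero.mpr ha, neg_ne_zero.mpr hb, neg_ne_zero.mpr hc, p, pp, hp5,
      ?_, hgcd _ _ hab.neg_neg, ?_, ?_⟩⟩
    · rw [hp.neg_pow, hp.neg_pow, hp.neg_pow, ← H]; ring
    · have : ((-a : ℤ) : ZMod 4) = ((3 : ℤ) : ZMod 4) := by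
        rw [ZMod.intCast_eq_intCast_iff']
        omega
      simpa using this
    · push_cast
      rw [hb2, neg_zero]

theorem aux_coprime (a b c : ℤ) (ha : a ≠ 0) (hb : b ≠ 0) (hc : c ≠ 0) (p : ℕ) (pp : p.Prime)
    (hp5 : 5 ≤ p) (H : a ^ p + b ^ p = c ^ p) (hab : IsCoprime a b) :
    Nonempty FreyPackage := by
  have hp : Odd p := pp.odd_of_ne_two (by omega)
  rcases Int.even_or_odd b with hbe | hbo
  · exact aux_package a b c ha hb hc p pp hp5 H hab hbe
  rcases Int.even_or_odd a with hae | hao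
  · exact aux_package b a c hb ha hc p pp hp5 (by rw [add_comm]; exact H) hab.symm hae
  · have hce : Even c := by
      have h1 : Even (c ^ p) := by
        rw [← H]
        exact (hao.pow).add_odd hbo.pow
      exact (Int.even_pow.mp h1).1
    have hac : IsCoprime a c := by
      have h1 : IsCoprime (a ^ p) (b ^ p) := hab.pow
      have h2 : IsCoprime (a ^ p) (c ^ p) := by
        have := h1.add_mul_left_right 1
        rw [mul_one, add_comm, H] at this
        exact this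
      exact (IsCoprime.pow_iff pp.pos pp.pos).mp h2
    refine aux_package a (-c) (-b) ha (neg_ne_zero.mpr hc) (neg_ne_zero.mpr hb) p pp hp5 ?_
      hac.neg_right hce.neg
    rw [hp.neg_pow, hp.neg_pow, ← H]; ring

theorem result (a b c : ℤ) (ha : a ≠ 0) (hb : b ≠ 0) (hc : c ≠ 0) (p : ℕ) (pp : p.Prime) (hp5 : 5 ≤ p) (H : a ^ p + b ^ p = c ^ p) : Nonempty FreyPackage := by
  obtain ⟨g, a', b', hg, hcop, rfl, rfl⟩ :=
    Int.exists_gcd_one' (m := a) (n := b) (Int.gcd_pos_of_ne_zero_left _ ha)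
  have hg0 : (g : ℤ) ≠ 0 := by exact_mod_cast hg.ne'
  have hdvd : (g : ℤ) ^ p ∣ c ^ p := ⟨a' ^ p + b' ^ p, by rw [← H]; ring⟩
  obtain ⟨c', rfl⟩ := (Int.pow_dvd_pow_iff pp.ne_zero).mp hdvd
  refine aux_coprime a' b' c' (left_ne_zero_of_mul ha) (left_ne_zero_of_mul hb)
    (right_ne_zero_of_mul hc) p pp hp5 ?_ (Int.isCoprime_iff_gcd_eq_one.mpr hcop)
  have h1 : (g : ℤ) ^ p * (a' ^ p + b' ^ p) = (g : ℤ) ^ p * c' ^ p := by
    rw [← mul_pow, ← H]; ring
  exact mul_left_cancel₀ (pow_ne_zero _ hg0) h1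

end Fermat.Agent.S02
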