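import Fermat.Statements.S06
import Fermat.Agent.Endgame.Main
import Fermat.Agent.S50
import Fermat.Agent.S59

/-!
# S06: modularity of the Frey representation at a conductor level
-/

set_option autoImplicit false
open WeierstrassCurve WeierstrassCurve.Affine WeierstrassCurve.Affine.Point
open CuspForm ModularFormClass UpperHalfPlane
open FreyPackage

namespace Fermat.Agent.S06

theorem result (P : FreyPackage) : ∃ N : ℕ, P.IsConductorLevel N ∧ P.ModularRepOfLevel N := by
  exact FLTAgent.Endgame.exists_conductor_modularRep P
    (FLTAgent.Endgame.freyExactLevel Fermat.Agent.S50.result Fermat.Agent.S59.result P)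

end Fermat.Agent.S06
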