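import Fermat.Statements.S08
import Fermat.Agent.MFDim.Small

/-!
# S08: no weight 2 cusp forms of level 1
-/

set_option autoImplicit false
open WeierstrassCurve WeierstrassCurve.Affine WeierstrassCurve.Affine.Point
open CuspForm ModularFormClass UpperHalfPlane
open ModularForm

namespace Fermat.Agent.S08

theorem result (f : CuspForm (CongruenceSubgroup.Gamma0 1) 2) : f = 0 := by
  refine FLTAgent.MFDim.cuspForm_weight_two_eq_zero 1 ?_ f
  have h : CongruenceSubgroup.Gamma0 1 = ⊤ := by
    ext
    simp [eq_iff_true_of_subsingleton]
  simp [h]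

end Fermat.Agent.S08
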