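import Fermat.Statements.S03
import Fermat.Agent.Endgame.Frey
import Fermat.Agent.S05
import Fermat.Agent.S06
import Fermat.Agent.S07
import Fermat.Agent.S08
import Fermat.Agent.S09
import Fermat.Agent.S43
import Fermat.Agent.S44

/-!
# S03: there is no Frey package
-/

set_option autoImplicit false
open FreyPackage

namespace Fermat.Agent.S03

theorem result (P : FreyPackage) : False := by
  exact FLTAgent.Endgame.false_of_inputs P (Fermat.Agent.S09.result P)
    (fun hq hq2 hqp => Fermat.Agent.S05.result P hq hq2 hqp) Fermat.Agent.S43.result
    Fermat.Agent.S44.result (Fermat.Agent.S06.result P) Fermat.Agent.S07.result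
    Fermat.Agent.S08.result

end Fermat.Agent.S03
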