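import Fermat.Statements.S11
import Fermat.Agent.Regular.SmallExponents

/-!
# S11: no cofixed line for p = 11
-/

set_option autoImplicit false
open WeierstrassCurve WeierstrassCurve.Affine WeierstrassCurve.Affine.Point
open CuspForm ModularFormClass UpperHalfPlane
open FreyPackage

namespace Fermat.Agent.S11

theorem result (P : FreyPackage) (hp : P.p = 11) : ¬ HasGaloisStableCofixedLine (K := AlgebraicClosure ℚ) ℚ P.freyCurve P.p := by
  exact (FLTAgent.Regular.no_freyPackage_eleven P hp).elim

end Fermat.Agent.S11
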