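import Fermat.Statements.S16
import Fermat.Agent.Eisenstein.Quotient

/-!
# S16: index of the Eisenstein ideal
-/

set_option autoImplicit false
open ModularCurve CuspForm
open ModularCurve

namespace Fermat.Agent.S16

theorem result
    (p : ℕ) [Fact p.Prime] :
    Nat.card (↥(heckeLatticeAlgebra p ∅) ⧸
        Ideal.map ((latticeRestrictHom p ∅).toRingHom.comp (heckeEvalForms p 2))
          (eisensteinIdeal p)) =
      eisensteinNumerator p := by
  exact FLTAgent.Eisenstein.natCard_quotient_eisensteinIdeal

end Fermat.Agent.S16
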