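import Fermat.Statements.S28
import Fermat.Agent.Igusa.SpecialFibre

/-!
# S28: Igusa: the integral special fibre
-/

set_option autoImplicit false
open AlgebraicGeometry CategoryTheory CategoryTheory.Limits ModularCurve ModularCurve.IgusaScheme
noncomputable section
open ModularCurve ModularCurve.IgusaScheme

namespace Fermat.Agent.S28

theorem result
    (N : ℕ) [NeZero N] (ℓ : ℕ) [Fact ℓ.Prime] (hℓN : ¬ ℓ ∣ N)
    (K : Type) [Field K] [CharP K ℓ] [Algebra ↥(GaloisRep.ratLocalizedAt ℓ) K] :
    IsIntegral ↑(pullback (igusaTo N ℓ)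
      (Spec.map (CommRingCat.ofHom (algebraMap ↥(GaloisRep.ratLocalizedAt ℓ) K)))) := by
  exact FLTAgent.Igusa.isIntegral_specialFibre ℓ N hℓN

end Fermat.Agent.S28
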