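import Fermat.Statements.S32
import Fermat.Agent.FiniteFlat.Torsion
import Fermat.Agent.GoodReduction.X0
import Fermat.Agent.GaloisAttach.Supplied

/-!
# S32: flatness at p ∤ N
-/

set_option autoImplicit false
variable {p : ℕ} {N : ℕ} [NeZero N] {S : Finset ℕ}
  {𝒪 : Type} [CommRing 𝒪] [IsDomain 𝒪] [IsDiscreteValuationRing 𝒪]
  [IsAdicComplete (IsLocalRing.maximalIdeal 𝒪) 𝒪]
  {θ : CuspForm.heckeAlgebra N 2 (↑S : Set ℕ) →+* IsLocalRing.ResidueField 𝒪}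
  {T : Type} [CommRing T] [IsLocalRing T] [IsNoetherianRing T]
  [IsAdicComplete (IsLocalRing.maximalIdeal T) T] [Algebra 𝒪 T] [IsLocalHom (algebraMap 𝒪 T)]
  [Module.Finite 𝒪 T] [Module.Free 𝒪 T]
open CuspForm CuspForm.HeckeGaloisRepDatum

namespace Fermat.Agent.S32

theorem result
    [Finite (IsLocalRing.ResidueField 𝒪)] [CharZero 𝒪]
    (hp : p.Prime) (hp2 : p ≠ 2) (hp𝒪 : (p : 𝒪) ∈ IsLocalRing.maximalIdeal 𝒪) (hpN : ¬ p ∣ N)
    (hpS : p ∈ S) (hNS : ∀ q : ℕ, q.Prime → q ∣ N → q ∈ S)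
    (H : CuspForm.HeckeGaloisRepDatum N (↑S : Set ℕ) 𝒪 θ T) :
    H.ρ.IsFlatAt p := by
  have : Fact p.Prime := ⟨hp⟩
  obtain ⟨A, hA⟩ := FLTAgent.Density.exists_liesOverPrime hp
  exact FLTAgent.FiniteFlat.isFlatAt_datum hp hp𝒪 (FLTAgent.GaloisAttach.jacobianInputs N hp)
    FLTAgent.GaloisAttach.frobeniusDivisions
    (fun n => FLTAgent.FiniteFlat.hasFlatModel_torsAct hpN hA
      (FLTAgent.GoodReduction.x0GoodReduction N hp hpN A hA) (pow_ne_zero n hp.ne_zero)) H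

end Fermat.Agent.S32
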