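import Fermat.Statements.S42
import Fermat.Agent.GaloisAttach.Supplied

/-!
# S42: residual attachment at every level for the Frey prime
-/

set_option autoImplicit false
open FreyPackage

namespace Fermat.Agent.S42

theorem result (P : FreyPackage) :
    ∀ M : ℕ, 0 < M → P.EigenformResidualAttachmentAt M := by
  exact FLTAgent.GaloisAttach.eigenformResidualAttachment P
    (fun M => FLTAgent.GaloisAttach.jacobianInputs M P.pp) FLTAgent.GaloisAttach.frobeniusDivisions

end Fermat.Agent.S42
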