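import Fermat.Statements.S49
import Fermat.Agent.Eigenforms.Lifting

/-!
# S49: lifting lemma for eigensystems
-/

set_option autoImplicit false
open CuspForm EisensteinWeightOne CongruenceSubgroup ModularFormClass
open FLT FLT.AbstractIntegralStructure

namespace Fermat.Agent.S49

theorem result
    {N : ℕ} [NeZero N] (h : CuspForm.HasIntegralBasis N) {a : ℕ → ℤ}
    (heig : FormalHecke.IsEigensystem
      (fun ℓ => if ℓ ∣ N then 0 else ((chiNegThree ℓ : ℤ) : ℤ)) a)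
    (hreal : CuspForm.IsLatticeRealized N a) :
    ∃ (f : CuspForm (Gamma0 N) 2) (_ : f.IsNormalizedEigenform)
      (𝔪' : Ideal (integralClosure ℤ ℂ)), 𝔪'.IsMaximal ∧
      ((3 : ℕ) : integralClosure ℤ ℂ) ∈ 𝔪' ∧
      ∀ (ℓ : ℕ) (_ : ℓ.Prime) (_ : ¬ ℓ ∣ N),
        ∃ c : integralClosure ℤ ℂ, (c : ℂ) = ModularFormClass.qCoeff f ℓ ∧
          c - (a ℓ : integralClosure ℤ ℂ) ∈ 𝔪' := by
  have hint : CuspForm.HasIntegralStructure N 2 := by
    refine top_le_iff.mp (h.ge.trans (Submodule.span_mono fun f hf => Submodule.subset_span ?_))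
    intro n
    obtain ⟨m, hm⟩ := Subring.mem_bot.mp (hf n)
    exact ⟨m, hm.symm⟩
  obtain ⟨g, hgint, af, haf, hcong⟩ := hreal
  have hg : g ∈ CuspForm.intLattice N 2 :=
    (FLTAgent.Eigenforms.mem_intLattice_iff g).mpr fun n => ⟨af n, (haf n).symm⟩
  have hco : ∀ n, FLTAgent.Eigenforms.intCoeff ⟨g, hg⟩ n = af n := fun n =>
    Int.cast_injective (α := ℂ) ((FLTAgent.Eigenforms.intCoeff_spec _ n).trans (haf n).symm)
  have hred : ∀ n, ((af n : ℤ) : ZMod 3) = (a n : ZMod 3) := by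
    intro n
    have hE : PowerSeries.map (Int.castRingHom (ZMod 3)) (e1Chi3In ℤ) = 1 := by
      ext m
      rw [e1Chi3In, PowerSeries.coeff_map, PowerSeries.coeff_map, e1Chi3, PowerSeries.coeff_mk,
        PowerSeries.coeff_one]
      by_cases hm : m = 0
      · simp [hm]
      · simp only [if_neg hm]
        have h6 : (6 : ZMod 3) = 0 := by decide
        simp [h6]
    have hb : (((bridgeProduct a).coeff n : ℤ) : ZMod 3) = (a n : ZMod 3) := by
      have := congrArg (fun F => PowerSeries.coeff n F)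
        (map_mul (PowerSeries.map (Int.castRingHom (ZMod 3))) (PowerSeries.mk a) (e1Chi3In ℤ))
      rw [hE, mul_one, PowerSeries.coeff_map, PowerSeries.coeff_map, PowerSeries.coeff_mk] at this
      exact this
    rw [← hb, ← sub_eq_zero, ← Int.cast_sub]
    exact (ZMod.intCast_zmod_eq_zero_iff_dvd _ 3).mpr (hcong n)
  have hchi : ∀ ℓ : ℕ, ((chiNegThree ℓ : ℤ) : ZMod 3) = (ℓ : ZMod 3) := fun ℓ => by
    rw [chiNegThree, ← ZMod.natCast_mod ℓ 3]
    have : ℓ % 3 < 3 := Nat.mod_lt _ (by norm_num)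
    interval_cases ℓ % 3 <;> decide
  have : Fact (Nat.Prime 3) := ⟨Nat.prime_three⟩
  obtain ⟨θ, hθT, -⟩ := FLTAgent.Eigenforms.exists_residualChar_of_congruence (S := ∅) (p := 3)
    ⟨g, hg⟩ ⟨1, by
      rw [hco, ← ZMod.intCast_zmod_eq_zero_iff_dvd, hred, heig.1]
      decide⟩ a (fun ℓ _ n => by
      rw [← ZMod.intCast_zmod_eq_zero_iff_dvd]
      have hE := congrArg (fun x : ℤ => (x : ZMod 3)) (heig.2 ℓ ℓ.2 n)
      simp only [hco, FLTAgent.Eigenforms.heckeE, Int.cast_sub, Int.cast_add, Int.cast_mul,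
        apply_ite (fun x : ℤ => (x : ZMod 3)), Int.cast_zero, Int.cast_natCast,
        hred, hchi] at hE ⊢
      rw [hE, sub_self])
  obtain ⟨f, hf, 𝔪, hmax, h3, hlift, -⟩ :=
    FLTAgent.Eigenforms.exists_eigenform_congruent hint Nat.prime_three θ
  refine ⟨f, hf, 𝔪, hmax, h3, fun ℓ hℓ hℓN => ?_⟩
  obtain ⟨c, hc, hcm⟩ := hlift _ (a ℓ) (hθT ℓ hℓ hℓN (Set.notMem_empty _))
  exact ⟨c, hc.trans (FLTAgent.Eigenforms.eigenChar_T hf hℓ hℓN _), hcm⟩

end Fermat.Agent.S49
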